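/-
P-CFT / abstract block TATE (helper24): Tate's theorem (Tate–Nakayama) for finite groups, on
Mathlib's `tateCohomology`.  INTERFACES ONLY: definitions and statement-Props.

Route (splitting module + twin-number criterion):
* `ShiftStatement`      : every module embeds into / is a quotient of a module with trivial Tate
                          cohomology for all subgroups (coinduced modules; Shapiro).
* `Bridge*Statement`    : elementary descriptions of the vanishing of `Ĥ⁻¹`, `Ĥ⁰`, `Ĥ¹`.
* `TwinE1/E2Statement`  : the twin-number criterion in the elementary degrees `-1, 0, 1`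
                          (p-groups by induction along a normal subgroup of index `p`, then Sylow).
* `TwinCriterionStatement` : the general criterion (by dimension shifting).
* `SplittingStatement`  : the splitting module of a fundamental class.
* `TateTheoremStatement`: the final theorem.
-/
import Mathlib.RepresentationTheory.Homological.TateCohomology.Basic
import Mathlib.RepresentationTheory.Homological.GroupCohomology.Functoriality

set_option autoImplicit false

noncomputable section

open CategoryTheory

namespace Fermat.Agent.H24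

/-! ### Vanishing of Tate cohomology for all subgroups -/

/-- `Ĥ^q(S, M) = 0` for every subgroup `S` of `G`. -/
def TateVanishAt {G : Type} [Group G] [Fintype G] (M : Rep ℤ G) (q : ℤ) : Prop :=
  ∀ (S : Subgroup G) [Fintype S], Limits.IsZero (tateCohomology (Rep.res S.subtype M) q)

/-- `M` is cohomologically trivial: `Ĥ^q(S, M) = 0` for every subgroup `S` and every `q`. -/
def TateTrivial {G : Type} [Group G] [Fintype G] (M : Rep ℤ G) : Prop :=
  ∀ q : ℤ, TateVanishAt M q

/-! ### Elementary predicates in degrees `-1, 0, 1` -/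

section Elementary

variable {k G V : Type*} [CommRing k] [Group G] [Fintype G] [AddCommGroup V] [Module k V]

open scoped Classical in
/-- The norm `a ↦ ∑_{s ∈ S} s a` of a subgroup `S`. -/
def normOn (ρ : Representation k G V) (S : Subgroup G) (a : V) : V :=
  ∑ g ∈ Finset.univ.filter (fun g : G => g ∈ S), ρ g a

/-- The subgroup `I_S V` generated by the `s b - b`, `s ∈ S`. -/
def augOn (ρ : Representation k G V) (S : Subgroup G) : AddSubgroup V :=
  AddSubgroup.closure {x : V | ∃ s ∈ S, ∃ b : V, x = ρ s b - b}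

/-- `Ĥ⁰(S, V) = 0`: every `S`-invariant element is an `S`-norm. -/
def P0 (ρ : Representation k G V) (S : Subgroup G) : Prop :=
  ∀ a : V, (∀ s ∈ S, ρ s a = a) → ∃ b : V, normOn ρ S b = a

/-- `Ĥ⁻¹(S, V) = 0`: every element of norm zero lies in `I_S V`. -/
def Pm1 (ρ : Representation k G V) (S : Subgroup G) : Prop :=
  ∀ a : V, normOn ρ S a = 0 → a ∈ augOn ρ S

/-- `H¹(S, V) = 0`: every `1`-cocycle on `S` is a coboundary. -/
def P1 (ρ : Representation k G V) (S : Subgroup G) : Prop :=
  ∀ f : G → V, (∀ s ∈ S, ∀ t ∈ S, f (s * t) = ρ s (f t) + f s) →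
    ∃ a : V, ∀ s ∈ S, f s = ρ s a - a

end Elementary

/-- **T-EL1** elementary twin-number criterion, upwards: `Ĥ⁻¹ = Ĥ⁰ = 0` for all subgroups
implies `H¹ = 0` for all subgroups. -/
def TwinE1Statement : Prop :=
  ∀ (G : Type) [Group G] [Fintype G] (V : Type) [AddCommGroup V] [Module ℤ V]
    (ρ : Representation ℤ G V),
    (∀ S : Subgroup G, Pm1 ρ S ∧ P0 ρ S) → ∀ S : Subgroup G, P1 ρ S

/-- **T-EL2** elementary twin-number criterion, downwards: `Ĥ⁰ = H¹ = 0` for all subgroups
implies `Ĥ⁻¹ = 0` for all subgroups. -/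
def TwinE2Statement : Prop :=
  ∀ (G : Type) [Group G] [Fintype G] (V : Type) [AddCommGroup V] [Module ℤ V]
    (ρ : Representation ℤ G V),
    (∀ S : Subgroup G, P0 ρ S ∧ P1 ρ S) → ∀ S : Subgroup G, Pm1 ρ S

/-! ### Bridges to Mathlib's Tate cohomology -/

/-- `P0` for an object of `Rep ℤ G` (with the module structure carried by the object). -/
abbrev RepP0 {G : Type} [Group G] [Fintype G] (M : Rep ℤ G) (S : Subgroup G) : Prop :=
  @P0 ℤ G M.V _ _ _ _ M.hV2 M.ρ S

/-- `Pm1` for an object of `Rep ℤ G` (with the module structure carried by the object). -/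
abbrev RepPm1 {G : Type} [Group G] [Fintype G] (M : Rep ℤ G) (S : Subgroup G) : Prop :=
  @Pm1 ℤ G M.V _ _ _ _ M.hV2 M.ρ S

/-- `P1` for an object of `Rep ℤ G` (with the module structure carried by the object). -/
abbrev RepP1 {G : Type} [Group G] [Fintype G] (M : Rep ℤ G) (S : Subgroup G) : Prop :=
  @P1 ℤ G M.V _ _ _ M.hV2 M.ρ S

/-- **T-BR0** `Ĥ⁰(S, M) = 0` iff every `S`-invariant is an `S`-norm. -/
def BridgeH0Statement : Prop :=
  ∀ (G : Type) [Group G] [Fintype G] (M : Rep ℤ G) (S : Subgroup G) [Fintype S],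
    Limits.IsZero (tateCohomology (Rep.res S.subtype M) 0) ↔ RepP0 M S

/-- **T-BR-1** `Ĥ⁻¹(S, M) = 0` iff every element of `S`-norm zero lies in `I_S M`. -/
def BridgeHm1Statement : Prop :=
  ∀ (G : Type) [Group G] [Fintype G] (M : Rep ℤ G) (S : Subgroup G) [Fintype S],
    Limits.IsZero (tateCohomology (Rep.res S.subtype M) (-1)) ↔ RepPm1 M S

/-- **T-BR1** `Ĥ¹(S, M) = 0` iff every `1`-cocycle on `S` is a coboundary. -/
def BridgeH1Statement : Prop :=
  ∀ (G : Type) [Group G] [Fintype G] (M : Rep ℤ G) (S : Subgroup G) [Fintype S],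
    Limits.IsZero (tateCohomology (Rep.res S.subtype M) 1) ↔ RepP1 M S

/-! ### Dimension shifting -/

/-- **T-IND** Every `G`-module `M` embeds into, and is a quotient of, a `G`-module which is
cohomologically trivial (the coinduced module `Map(G, M)`). -/
def ShiftStatement : Prop :=
  ∀ (G : Type) [Group G] [Fintype G] (M : Rep ℤ G),
    ∃ (I : Rep ℤ G) (i : M ⟶ I) (p : I ⟶ M), Mono i ∧ Epi p ∧ TateTrivial I

/-- **T-REG** The regular representation `ℤ[G]` is cohomologically trivial. -/
def LeftRegularTrivialStatement : Prop :=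
  ∀ (G : Type) [Group G] [Fintype G], TateTrivial (Rep.leftRegular ℤ G)

/-- **T-LES** A short exact sequence whose middle term is cohomologically trivial induces
isomorphisms `Ĥ^q(S, X₃) ≅ Ĥ^{q+1}(S, X₁)`. -/
def ShiftIsoStatement : Prop :=
  ∀ (G : Type) [Group G] [Fintype G] (X : ShortComplex (Rep ℤ G)), X.ShortExact →
    TateTrivial X.X₂ → ∀ (S : Subgroup G) [Fintype S] (q : ℤ),
      Nonempty (tateCohomology (Rep.res S.subtype X.X₃) q ≅
        tateCohomology (Rep.res S.subtype X.X₁) (q + 1))

/-- **T-TWIN** The twin-number criterion: if `Ĥ^q(S, M) = Ĥ^{q+1}(S, M) = 0` for all subgroups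
`S`, then `M` is cohomologically trivial. -/
def TwinCriterionStatement : Prop :=
  ∀ (G : Type) [Group G] [Fintype G] (M : Rep ℤ G) (q : ℤ),
    TateVanishAt M q → TateVanishAt M (q + 1) → TateTrivial M

/-! ### Class modules and Tate's theorem -/

/-- The hypotheses of Tate's theorem: `H¹(S, C) = 0` and `H²(S, C)` is cyclic of order `#S`,
generated by the restriction of the fundamental class `u`, for every subgroup `S`. -/
def TateClassHyp {G : Type} [Group G] (C : Rep ℤ G) (u : groupCohomology C 2) : Prop :=
  ∀ S : Subgroup G,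
    Subsingleton (groupCohomology (Rep.res S.subtype C) 1) ∧
    Nat.card (groupCohomology (Rep.res S.subtype C) 2) = Nat.card S ∧
    ∀ y : groupCohomology (Rep.res S.subtype C) 2,
      ∃ m : ℤ, y = m • groupCohomology.map S.subtype (𝟙 (Rep.res S.subtype C)) 2 u

/-- **T-SPLIT** The splitting module: for a class module `(C, u)` there are short exact sequences
`0 → C → D → A → 0` and `0 → A → ℤ[G] → ℤ → 0` with `H¹(S, D) = H²(S, D) = 0` for all `S`. -/
def SplittingStatement : Prop :=
  ∀ (G : Type) [Group G] [Fintype G] (C : Rep ℤ G) (u : groupCohomology C 2),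
    TateClassHyp C u →
    ∃ (A D : Rep ℤ G) (f : C ⟶ D) (g : D ⟶ A) (f' : A ⟶ Rep.leftRegular ℤ G)
      (g' : Rep.leftRegular ℤ G ⟶ Rep.trivial ℤ G ℤ) (w : f ≫ g = 0) (w' : f' ≫ g' = 0),
      (ShortComplex.mk f g w).ShortExact ∧ (ShortComplex.mk f' g' w').ShortExact ∧
      TateVanishAt D 1 ∧ TateVanishAt D 2

/-- **Tate's theorem** For a class module `(C, u)` of the finite group `G`:
`Ĥ^{n+2}(S, C) ≅ Ĥ^n(S, ℤ)` for every subgroup `S` and every `n : ℤ`. -/
def TateTheoremStatement : Prop :=
  ∀ (G : Type) [Group G] [Fintype G] (C : Rep ℤ G) (u : groupCohomology C 2),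
    TateClassHyp C u →
    ∀ (S : Subgroup G) [Fintype S] (n : ℤ),
      Nonempty (tateCohomology (Rep.res S.subtype C) (n + 2) ≅
        tateCohomology (Rep.trivial ℤ S ℤ) n)

/-- Consequence: `H³(S, C) = 0` for a class module. -/
def TateH3Statement : Prop :=
  ∀ (G : Type) [Group G] [Fintype G] (C : Rep ℤ G) (u : groupCohomology C 2),
    TateClassHyp C u →
    ∀ S : Subgroup G, Subsingleton (groupCohomology (Rep.res S.subtype C) 3)

/-- Consequence: `#(C^G / N_G C) = #G^ab` for a class module. -/
def TateH0CardStatement : Prop :=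
  ∀ (G : Type) [Group G] [Fintype G] (C : Rep ℤ G) (u : groupCohomology C 2),
    TateClassHyp C u →
    Nat.card (tateCohomology C 0) = Nat.card (Abelianization G)

end Fermat.Agent.H24

end
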