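/-
P-CFT / TATE block (helper24), row TATE-EL: elementary lemmas on norms and augmentation
subgroups of subgroups of a finite group acting on an abelian group.
-/
import Fermat.Agent.H24.Tate.Interfaces
import Mathlib.GroupTheory.Sylow
import Mathlib.GroupTheory.IndexNormal
import Mathlib.GroupTheory.SpecificGroups.Cyclic.Basic

set_option autoImplicit false
set_option linter.style.haveILetI false
set_option linter.unusedSectionVars false

noncomputable section

namespace Fermat.Agent.H24

section Basic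

variable {k G V : Type*} [CommRing k] [Group G] [Fintype G] [AddCommGroup V] [Module k V]
  (ρ : Representation k G V)

/-- The norm as a sum over the subtype. -/
theorem normOn_eq_sum_subtype (S : Subgroup G) [Fintype S] (a : V) :
    normOn ρ S a = ∑ s : S, ρ (s : G) a := by
  unfold normOn
  rw [Finset.sum_subtype (p := fun g : G => g ∈ S) _ (by simp) (fun g => ρ g a)]

/-- General form: sums over the filter are sums over the subtype. -/
theorem sum_filter_mem_eq_sum_subtype (S : Subgroup G) [Fintype S] [DecidablePred (· ∈ S)]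
    (F : G → V) : ∑ g ∈ Finset.univ.filter (fun g : G => g ∈ S), F g = ∑ s : S, F (s : G) := by
  rw [Finset.sum_subtype (p := fun g : G => g ∈ S) _ (by simp) F]

@[simp]
theorem normOn_zero (S : Subgroup G) : normOn ρ S (0 : V) = 0 := by
  simp [normOn]

theorem normOn_add (S : Subgroup G) (a b : V) :
    normOn ρ S (a + b) = normOn ρ S a + normOn ρ S b := by
  simp [normOn, Finset.sum_add_distrib]

theorem normOn_neg (S : Subgroup G) (a : V) : normOn ρ S (-a) = -normOn ρ S a := by
  simp [normOn]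

theorem normOn_sub (S : Subgroup G) (a b : V) :
    normOn ρ S (a - b) = normOn ρ S a - normOn ρ S b := by
  simp [normOn, Finset.sum_sub_distrib]

/-- The norm of `S` is `S`-invariant. -/
theorem apply_normOn_of_mem (S : Subgroup G) {s : G} (hs : s ∈ S) (a : V) :
    ρ s (normOn ρ S a) = normOn ρ S a := by
  classical
  haveI : Fintype S := Fintype.ofFinite S
  rw [normOn_eq_sum_subtype, map_sum]
  refine Fintype.sum_equiv (Equiv.mulLeft (⟨s, hs⟩ : S)) _ _ (fun t => ?_)
  simp [map_mul]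

/-- The norm of `S` kills the action of `S`. -/
theorem normOn_apply_of_mem (S : Subgroup G) {s : G} (hs : s ∈ S) (a : V) :
    normOn ρ S (ρ s a) = normOn ρ S a := by
  classical
  haveI : Fintype S := Fintype.ofFinite S
  rw [normOn_eq_sum_subtype, normOn_eq_sum_subtype]
  refine Fintype.sum_equiv (Equiv.mulRight (⟨s, hs⟩ : S)) _ _ (fun t => ?_)
  simp [map_mul]

/-- The norm of a subgroup commutes with elements normalising it. -/
theorem apply_normOn_of_normalizes (N : Subgroup G) {g : G}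
    (hg : ∀ x ∈ N, g * x * g⁻¹ ∈ N) (hg' : ∀ x ∈ N, g⁻¹ * x * g ∈ N) (a : V) :
    ρ g (normOn ρ N a) = normOn ρ N (ρ g a) := by
  classical
  haveI : Fintype N := Fintype.ofFinite N
  rw [normOn_eq_sum_subtype, normOn_eq_sum_subtype, map_sum]
  let e : N ≃ N :=
    { toFun := fun x => ⟨g * x * g⁻¹, hg x x.2⟩
      invFun := fun x => ⟨g⁻¹ * x * g, hg' x x.2⟩
      left_inv := fun x => by ext; simp [mul_assoc]
      right_inv := fun x => by ext; simp [mul_assoc] }
  refine Fintype.sum_equiv e _ _ (fun t => ?_)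
  simp only [e, Equiv.coe_fn_mk]
  rw [← Module.End.mul_apply, ← Module.End.mul_apply, ← map_mul, ← map_mul]
  congr 2
  simp [mul_assoc]

theorem augOn_mono {S T : Subgroup G} (h : S ≤ T) : augOn ρ S ≤ augOn ρ T := by
  apply AddSubgroup.closure_mono
  rintro x ⟨s, hs, b, rfl⟩
  exact ⟨s, h hs, b, rfl⟩

theorem sub_mem_augOn (S : Subgroup G) {s : G} (hs : s ∈ S) (b : V) :
    ρ s b - b ∈ augOn ρ S :=
  AddSubgroup.subset_closure ⟨s, hs, b, rfl⟩

/-- The norm of `S` kills `I_S V`. -/
theorem normOn_eq_zero_of_mem_augOn (S : Subgroup G) {x : V} (hx : x ∈ augOn ρ S) :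
    normOn ρ S x = 0 := by
  induction hx using AddSubgroup.closure_induction with
  | mem x hx =>
    obtain ⟨s, hs, b, rfl⟩ := hx
    rw [normOn_sub, normOn_apply_of_mem ρ S hs, sub_self]
  | zero => exact normOn_zero ρ S
  | add x y _ _ hx hy => rw [normOn_add, hx, hy, add_zero]
  | neg x _ hx => rw [normOn_neg, hx, neg_zero]

end Basic

section Structure

variable {G : Type*} [Group G] [Finite G]

theorem mem_map_subtype_iff (S : Subgroup G) (K : Subgroup S) {g : G} (hg : g ∈ S) :
    g ∈ K.map S.subtype ↔ (⟨g, hg⟩ : S) ∈ K := by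
  constructor
  · rintro ⟨x, hx, rfl⟩
    exact hx
  · intro h
    exact ⟨⟨g, hg⟩, h, rfl⟩

/-- A `p`-subgroup `S` of order `p ^ (n + 1)` has a subgroup `N` of order `p ^ n`, normalised by
`S`, and an element `σ` such that `S` is the disjoint union of the `σ ^ i N`, `i < p`. -/
theorem exists_normal_index_prime (p : ℕ) [hp : Fact p.Prime] (n : ℕ)
    (S : Subgroup G) (hS : Nat.card S = p ^ (n + 1)) :
    ∃ N : Subgroup G, N ≤ S ∧ Nat.card N = p ^ n ∧ (∀ s ∈ S, ∀ x ∈ N, s * x * s⁻¹ ∈ N) ∧
      ∃ σ ∈ S, σ ^ p ∈ N ∧ (∀ s ∈ S, ∃ i, i < p ∧ (σ ^ i)⁻¹ * s ∈ N) ∧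
        (∀ i j : ℕ, (σ ^ i)⁻¹ * σ ^ j ∈ N → i ≡ j [MOD p]) := by
  obtain ⟨K, hK⟩ := Sylow.exists_subgroup_card_pow_prime (G := S) p (n := n)
    (by rw [hS]; exact pow_dvd_pow p (Nat.le_succ n))
  have hidx : K.index = p := by
    have := K.card_mul_index
    rw [hK, hS, pow_succ] at this
    exact Nat.eq_of_mul_eq_mul_left (pow_pos hp.1.pos n) this
  have hKn : K.Normal := Subgroup.normal_of_index_eq_minFac_card
    (by rw [hidx, hS, Nat.Prime.pow_minFac hp.1 (Nat.succ_ne_zero n)])
  have hQ : Nat.card (S ⧸ K) = p := hidx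
  obtain ⟨σ, hσ⟩ : ∃ σ : S, σ ∉ K := by
    by_contra h
    have : K = ⊤ := eq_top_iff.mpr (fun x _ => by_contra fun hx => h ⟨x, hx⟩)
    rw [this, Subgroup.index_top] at hidx
    exact hp.1.one_lt.ne hidx
  set q : S ⧸ K := QuotientGroup.mk σ with hq
  have hq1 : q ≠ 1 := by
    rw [Ne, QuotientGroup.eq_one_iff]
    exact hσ
  have hqp : q ^ p = 1 := by
    rw [← hQ]
    exact pow_card_eq_one'
  have hord : orderOf q = p := orderOf_eq_prime hqp hq1
  refine ⟨K.map S.subtype, Subgroup.map_subtype_le K, ?_, ?_, σ, σ.2, ?_, ?_, ?_⟩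
  · rw [Subgroup.card_map_of_injective S.subtype_injective, hK]
  · rintro s hs x ⟨y, hy, rfl⟩
    have := hKn.conj_mem y hy ⟨s, hs⟩
    exact ⟨_, this, rfl⟩
  · rw [mem_map_subtype_iff S K (S.pow_mem σ.2 p)]
    have : (QuotientGroup.mk (σ ^ p) : S ⧸ K) = 1 := by
      rw [QuotientGroup.mk_pow]
      exact hqp
    rw [QuotientGroup.eq_one_iff] at this
    exact this
  · intro s hs
    have hmem : (QuotientGroup.mk (⟨s, hs⟩ : S) : S ⧸ K) ∈ Submonoid.powers q :=
      mem_powers_of_prime_card hQ hq1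
    obtain ⟨i, hi⟩ := hmem
    refine ⟨i % p, Nat.mod_lt _ hp.1.pos, ?_⟩
    have h1 : q ^ (i % p) = QuotientGroup.mk (⟨s, hs⟩ : S) := by
      rw [← hi, ← hord, pow_mod_orderOf]
    rw [hq, ← QuotientGroup.mk_pow, QuotientGroup.eq] at h1
    rw [mem_map_subtype_iff S K (S.mul_mem (S.inv_mem (S.pow_mem σ.2 _)) hs)]
    exact h1
  · intro i j hij
    rw [mem_map_subtype_iff S K (S.mul_mem (S.inv_mem (S.pow_mem σ.2 _)) (S.pow_mem σ.2 _))]
      at hij
    have h1 : q ^ i = q ^ j := by
      rw [hq, ← QuotientGroup.mk_pow, ← QuotientGroup.mk_pow, QuotientGroup.eq]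
      exact hij
    rw [pow_eq_pow_iff_modEq, hord] at h1
    exact h1

end Structure

end Fermat.Agent.H24

end
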