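/-
P-CFT / TATE block (helper24), row TATE-EL: the elementary twin-number criterion for
`p`-subgroups, by induction along a normal subgroup of index `p`.
-/
import Fermat.Agent.H24.Tate.ElemBasic

set_option autoImplicit false
set_option linter.style.haveILetI false
set_option linter.unusedSectionVars false

noncomputable section

namespace Fermat.Agent.H24

section PGroup

variable {k G V : Type*} [CommRing k] [Group G] [Fintype G] [AddCommGroup V] [Module k V]
  (ρ : Representation k G V)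

/-- Telescoping: `∑_{j<i} σ^j (σ x - x) = σ^i x - x`. -/
theorem sum_range_pow_apply_sub (σ : G) (x : V) (i : ℕ) :
    ∑ j ∈ Finset.range i, ρ (σ ^ j) (ρ σ x - x) = ρ (σ ^ i) x - x := by
  induction i with
  | zero => simp
  | succ i ih =>
    rw [Finset.sum_range_succ, ih, map_sub, ← Module.End.mul_apply, ← map_mul, ← pow_succ]
    abel

/-- Telescoping: `σ (∑_{j<i} σ^j w) - ∑_{j<i} σ^j w = σ^i w - w`. -/
theorem apply_sum_range_pow_sub (σ : G) (w : V) (i : ℕ) :
    ρ σ (∑ j ∈ Finset.range i, ρ (σ ^ j) w) - ∑ j ∈ Finset.range i, ρ (σ ^ j) w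
      = ρ (σ ^ i) w - w := by
  induction i with
  | zero => simp
  | succ i ih =>
    rw [Finset.sum_range_succ, map_add, ← Module.End.mul_apply (ρ σ), ← map_mul, ← pow_succ']
    have : ρ σ (∑ j ∈ Finset.range i, ρ (σ ^ j) w) = ρ (σ ^ i) w - w
        + ∑ j ∈ Finset.range i, ρ (σ ^ j) w := by rw [← ih]; abel
    rw [this]
    abel

/-- Splitting of the partial sums. -/
theorem sum_range_add_pow (σ : G) (w : V) (i j : ℕ) :
    ∑ l ∈ Finset.range (i + j), ρ (σ ^ l) w
      = ∑ l ∈ Finset.range i, ρ (σ ^ l) w + ρ (σ ^ i) (∑ l ∈ Finset.range j, ρ (σ ^ l) w) := by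
  rw [Finset.sum_range_add, map_sum]
  congr 1
  refine Finset.sum_congr rfl fun l _ => ?_
  rw [← Module.End.mul_apply, ← map_mul, ← pow_add]

/-- The coset decomposition of the norm. -/
theorem normOn_eq_sum_pow {S N : Subgroup G} {σ : G} {p : ℕ} (hNS : N ≤ S) (hσ : σ ∈ S)
    (hdec : ∀ s ∈ S, ∃ i, i < p ∧ (σ ^ i)⁻¹ * s ∈ N)
    (huniq : ∀ i j : ℕ, (σ ^ i)⁻¹ * σ ^ j ∈ N → i ≡ j [MOD p]) (a : V) :
    normOn ρ S a = ∑ i ∈ Finset.range p, ρ (σ ^ i) (normOn ρ N a) := by
  classical
  unfold normOn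
  simp_rw [map_sum, ← Module.End.mul_apply, ← map_mul]
  rw [← Finset.sum_product' (Finset.range p) (Finset.univ.filter (fun g : G => g ∈ N))
    (fun i x => ρ (σ ^ i * x) a)]
  symm
  refine Finset.sum_bij (fun x _ => σ ^ x.1 * x.2) ?_ ?_ ?_ ?_
  · intro x hx
    simp only [Finset.mem_product, Finset.mem_range, Finset.mem_filter, Finset.mem_univ,
      true_and] at hx ⊢
    exact S.mul_mem (S.pow_mem hσ _) (hNS hx.2)
  · intro x hx y hy hxy
    simp only [Finset.mem_product, Finset.mem_range, Finset.mem_filter, Finset.mem_univ,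
      true_and] at hx hy
    have h1 : (σ ^ x.1)⁻¹ * σ ^ y.1 = x.2 * y.2⁻¹ := by
      have : σ ^ y.1 = σ ^ x.1 * x.2 * y.2⁻¹ := by rw [hxy]; group
      rw [this]; group
    have h2 : x.1 = y.1 := by
      have := huniq x.1 y.1 (h1 ▸ N.mul_mem hx.2 (N.inv_mem hy.2))
      exact Nat.ModEq.eq_of_lt_of_lt this hx.1 hy.1
    have h3 : x.2 = y.2 := by
      rw [h2] at hxy
      exact mul_left_cancel hxy
    exact Prod.ext h2 h3
  · intro s hs
    simp only [Finset.mem_filter, Finset.mem_univ, true_and] at hs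
    obtain ⟨i, hi, hmem⟩ := hdec s hs
    refine ⟨(i, (σ ^ i)⁻¹ * s), ?_, ?_⟩
    · simp only [Finset.mem_product, Finset.mem_range, Finset.mem_filter, Finset.mem_univ,
        true_and]
      exact ⟨hi, hmem⟩
    · simp
  · intro x _
    rfl

/-- Invariance under `N` is preserved by elements normalising `N`. -/
theorem apply_invariant_of_normalizes {N : Subgroup G} {s : G}
    (hs : ∀ x ∈ N, s⁻¹ * x * s ∈ N) {w : V} (hw : ∀ x ∈ N, ρ x w = w) :
    ∀ x ∈ N, ρ x (ρ s w) = ρ s w := by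
  intro x hx
  have h1 : x * s = s * (s⁻¹ * x * s) := by group
  rw [← Module.End.mul_apply, ← map_mul, h1, map_mul, Module.End.mul_apply, hw _ (hs x hx)]

theorem sum_range_pow_invariant {S N : Subgroup G} {σ : G} (hσ : σ ∈ S)
    (hnorm : ∀ s ∈ S, ∀ x ∈ N, s * x * s⁻¹ ∈ N) {w : V} (hw : ∀ x ∈ N, ρ x w = w) (i : ℕ) :
    ∀ x ∈ N, ρ x (∑ j ∈ Finset.range i, ρ (σ ^ j) w) = ∑ j ∈ Finset.range i, ρ (σ ^ j) w := by
  intro x hx
  rw [map_sum]
  refine Finset.sum_congr rfl fun j _ => ?_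
  refine apply_invariant_of_normalizes ρ (fun y hy => ?_) hw x hx
  have := hnorm (σ ^ j)⁻¹ (S.inv_mem (S.pow_mem hσ j)) y hy
  simpa using this

/-- **E1 for `p`-groups**. -/
theorem P1_of_card_prime_pow (p : ℕ) [hp : Fact p.Prime]
    (hyp : ∀ S : Subgroup G, Pm1 ρ S ∧ P0 ρ S) :
    ∀ (n : ℕ) (S : Subgroup G), Nat.card S = p ^ n → P1 ρ S := by
  intro n
  induction n with
  | zero =>
    intro S hS f hf
    have hS' : S = ⊥ := by
      rw [pow_zero] at hS
      exact Subgroup.card_eq_one.mp hS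
    subst hS'
    refine ⟨0, fun s hs => ?_⟩
    rw [Subgroup.mem_bot] at hs
    subst hs
    have := hf 1 (one_mem _) 1 (one_mem _)
    simp only [mul_one, map_one, Module.End.one_apply] at this
    simpa using this
  | succ n ih =>
    intro S hS f hf
    obtain ⟨N, hNS, hN, hnorm, σ, hσ, hσp, hdec, huniq⟩ := exists_normal_index_prime p n S hS
    obtain ⟨a, ha⟩ := ih N hN f (fun s hs t ht => hf s (hNS hs) t (hNS ht))
    -- normalise the cocycle on `N`
    set f' : G → V := fun s => f s - (ρ s a - a) with hf'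
    have hf'c : ∀ s ∈ S, ∀ t ∈ S, f' (s * t) = ρ s (f' t) + f' s := by
      intro s hs t ht
      simp only [hf', hf s hs t ht, map_mul, Module.End.mul_apply, map_sub]
      abel
    have hf'N : ∀ x ∈ N, f' x = 0 := by
      intro x hx
      simp only [hf', ha x hx, sub_self]
    have hright : ∀ s ∈ S, ∀ x ∈ N, f' (s * x) = f' s := by
      intro s hs x hx
      rw [hf'c s hs x (hNS hx), hf'N x hx, map_zero, zero_add]
    have hinv : ∀ s ∈ S, ∀ x ∈ N, ρ x (f' s) = f' s := by
      intro s hs x hx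
      have h1 : x * s = s * (s⁻¹ * x * s) := by group
      have h2 : s⁻¹ * x * s ∈ N := by
        have := hnorm s⁻¹ (S.inv_mem hs) x hx
        simpa using this
      have h3 := hf'c x (hNS hx) s hs
      rw [h1, hright s hs _ h2, hf'N x hx, add_zero] at h3
      exact h3.symm
    have hpow : ∀ i : ℕ, f' (σ ^ i) = ∑ j ∈ Finset.range i, ρ (σ ^ j) (f' σ) := by
      intro i
      induction i with
      | zero => simpa using hf'N 1 (one_mem _)
      | succ i ihi =>
        rw [pow_succ, hf'c _ (S.pow_mem hσ i) σ hσ, ihi, Finset.sum_range_succ]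
        abel
    have hTp : ∑ j ∈ Finset.range p, ρ (σ ^ j) (f' σ) = 0 := by
      rw [← hpow]
      exact hf'N _ hσp
    obtain ⟨c₀, hc₀⟩ := (hyp N).2 (f' σ) (hinv σ hσ)
    have hNS0 : normOn ρ S c₀ = 0 := by
      rw [normOn_eq_sum_pow ρ hNS hσ hdec huniq, hc₀, hTp]
    have hc₀mem := (hyp S).1 c₀ hNS0
    have claim : ∀ x ∈ augOn ρ S, ∃ c, (∀ y ∈ N, ρ y c = c) ∧ normOn ρ N x = ρ σ c - c := by
      intro x hx
      induction hx using AddSubgroup.closure_induction with
      | mem x hx =>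
        obtain ⟨s, hs, y, rfl⟩ := hx
        obtain ⟨i, -, hmem⟩ := hdec s hs
        have hs' : s = σ ^ i * ((σ ^ i)⁻¹ * s) := by group
        have hw : ∀ x ∈ N, ρ x (normOn ρ N y) = normOn ρ N y :=
          fun x hx => apply_normOn_of_mem ρ N hx y
        refine ⟨∑ j ∈ Finset.range i, ρ (σ ^ j) (normOn ρ N y),
          sum_range_pow_invariant ρ hσ hnorm hw i, ?_⟩
        rw [apply_sum_range_pow_sub, normOn_sub]
        congr 1
        have h1 : normOn ρ N (ρ s y) = ρ s (normOn ρ N y) := by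
          refine (apply_normOn_of_normalizes ρ N (hnorm s hs) (fun x hx => ?_) y).symm
          have := hnorm s⁻¹ (S.inv_mem hs) x hx
          simpa using this
        rw [h1]
        conv_lhs => rw [hs', map_mul, Module.End.mul_apply, hw _ hmem]
      | zero => exact ⟨0, fun y _ => map_zero _, by simp⟩
      | add x y _ _ hx hy =>
        obtain ⟨c₁, h1, h1'⟩ := hx
        obtain ⟨c₂, h2, h2'⟩ := hy
        refine ⟨c₁ + c₂, fun y hy => by rw [map_add, h1 y hy, h2 y hy], ?_⟩
        rw [normOn_add, h1', h2', map_add]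
        abel
      | neg x _ hx =>
        obtain ⟨c₁, h1, h1'⟩ := hx
        refine ⟨-c₁, fun y hy => by rw [map_neg, h1 y hy], ?_⟩
        rw [normOn_neg, h1', map_neg]
        abel
    obtain ⟨c, hcN, hc⟩ := claim c₀ hc₀mem
    rw [hc₀] at hc
    refine ⟨c + a, fun s hs => ?_⟩
    obtain ⟨i, -, hmem⟩ := hdec s hs
    have hs' : s = σ ^ i * ((σ ^ i)⁻¹ * s) := by group
    have key : f' s = ρ s c - c := by
      conv_lhs => rw [hs']
      rw [hright _ (S.pow_mem hσ i) _ hmem, hpow, hc, sum_range_pow_apply_sub]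
      conv_rhs => rw [hs', map_mul, Module.End.mul_apply, hcN _ hmem]
    have : f s = f' s + (ρ s a - a) := by simp [hf']
    rw [this, key, map_add]
    abel

theorem normOn_bot (a : V) : normOn ρ (⊥ : Subgroup G) a = a := by
  classical
  unfold normOn
  have : Finset.univ.filter (fun g : G => g ∈ (⊥ : Subgroup G)) = {1} := by
    ext g
    simp [Subgroup.mem_bot]
  rw [this, Finset.sum_singleton, map_one, Module.End.one_apply]

/-- Periodicity of the partial sums of an element killed by `∑_{j<p} σ^j`. -/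
theorem sum_range_pow_periodic (σ : G) (b : V) (p : ℕ)
    (hb : ∑ j ∈ Finset.range p, ρ (σ ^ j) b = 0) {i j : ℕ} (hij : i ≡ j [MOD p]) :
    ∑ l ∈ Finset.range i, ρ (σ ^ l) b = ∑ l ∈ Finset.range j, ρ (σ ^ l) b := by
  have hmul : ∀ m : ℕ, ∑ l ∈ Finset.range (p * m), ρ (σ ^ l) b = 0 := by
    intro m
    induction m with
    | zero => simp
    | succ m ih => rw [Nat.mul_succ, sum_range_add_pow, ih, hb, map_zero, add_zero]
  have aux : ∀ {i j : ℕ}, i ≤ j → i ≡ j [MOD p] →
      ∑ l ∈ Finset.range i, ρ (σ ^ l) b = ∑ l ∈ Finset.range j, ρ (σ ^ l) b := by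
    intro i j hle h
    obtain ⟨m, hm⟩ := (Nat.modEq_iff_dvd' hle).mp h
    have : j = i + p * m := by omega
    rw [this, sum_range_add_pow, hmul, map_zero, add_zero]
  rcases le_total i j with h | h
  · exact aux h hij
  · exact (aux h hij.symm).symm

/-- **E2 for `p`-groups**. -/
theorem Pm1_of_card_prime_pow (p : ℕ) [hp : Fact p.Prime]
    (hyp : ∀ S : Subgroup G, P0 ρ S ∧ P1 ρ S) :
    ∀ (n : ℕ) (S : Subgroup G), Nat.card S = p ^ n → Pm1 ρ S := by
  intro n
  induction n with
  | zero =>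
    intro S hS a ha
    have hS' : S = ⊥ := by
      rw [pow_zero] at hS
      exact Subgroup.card_eq_one.mp hS
    subst hS'
    rw [normOn_bot] at ha
    rw [ha]
    exact zero_mem _
  | succ n ih =>
    intro S hS a ha
    obtain ⟨N, hNS, hN, hnorm, σ, hσ, hσp, hdec, huniq⟩ := exists_normal_index_prime p n S hS
    have hnorm' : ∀ s ∈ S, ∀ x ∈ N, s⁻¹ * x * s ∈ N := by
      intro s hs x hx
      have := hnorm s⁻¹ (S.inv_mem hs) x hx
      simpa using this
    set b : V := normOn ρ N a with hb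
    have hbN : ∀ x ∈ N, ρ x b = b := fun x hx => apply_normOn_of_mem ρ N hx a
    have hTp : ∑ j ∈ Finset.range p, ρ (σ ^ j) b = 0 := by
      rw [← normOn_eq_sum_pow ρ hNS hσ hdec huniq, ha]
    -- the index function
    classical
    let idx : G → ℕ := fun s => if h : s ∈ S then (hdec s h).choose else 0
    have hidx : ∀ s ∈ S, (σ ^ idx s)⁻¹ * s ∈ N := by
      intro s hs
      simp only [idx, dif_pos hs]
      exact (hdec s hs).choose_spec.2
    have hidx_uniq : ∀ s ∈ S, ∀ i : ℕ, (σ ^ i)⁻¹ * s ∈ N → idx s ≡ i [MOD p] := by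
      intro s hs i hi
      apply huniq
      have h1 : (σ ^ idx s)⁻¹ * σ ^ i = ((σ ^ idx s)⁻¹ * s) * ((σ ^ i)⁻¹ * s)⁻¹ := by group
      rw [h1]
      exact N.mul_mem (hidx s hs) (N.inv_mem hi)
    let f : G → V := fun s => ∑ l ∈ Finset.range (idx s), ρ (σ ^ l) b
    have hfN : ∀ s, ∀ x ∈ N, ρ x (f s) = f s := fun s =>
      sum_range_pow_invariant ρ hσ hnorm hbN (idx s)
    have hfc : ∀ s ∈ S, ∀ t ∈ S, f (s * t) = ρ s (f t) + f s := by
      intro s hs t ht
      have h1 : idx (s * t) ≡ idx s + idx t [MOD p] := by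
        apply hidx_uniq _ (S.mul_mem hs ht)
        have h2 : (σ ^ (idx s + idx t))⁻¹ * (s * t)
            = ((σ ^ idx t)⁻¹ * ((σ ^ idx s)⁻¹ * s) * (σ ^ idx t)) * ((σ ^ idx t)⁻¹ * t) := by
          rw [pow_add]; group
        rw [h2]
        refine N.mul_mem ?_ (hidx t ht)
        have := hnorm' (σ ^ idx t) (S.pow_mem hσ _) _ (hidx s hs)
        simpa [mul_assoc] using this
      have h3 : ρ s (f t) = ρ (σ ^ idx s) (f t) := by
        have hs' : s = σ ^ idx s * ((σ ^ idx s)⁻¹ * s) := by group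
        conv_lhs => rw [hs', map_mul, Module.End.mul_apply, hfN t _ (hidx s hs)]
      show ∑ l ∈ Finset.range (idx (s * t)), ρ (σ ^ l) b = ρ s (f t) + f s
      rw [sum_range_pow_periodic ρ σ b p hTp h1, sum_range_add_pow, h3, add_comm]
    obtain ⟨c, hc⟩ := (hyp S).2 f hfc
    have hcN : ∀ x ∈ N, ρ x c = c := by
      intro x hx
      have h0 : idx x ≡ 0 [MOD p] := hidx_uniq x (hNS hx) 0 (by simpa using hx)
      have h1 : f x = 0 := by
        show ∑ l ∈ Finset.range (idx x), ρ (σ ^ l) b = 0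
        rw [sum_range_pow_periodic ρ σ b p hTp h0]
        simp
      have := hc x (hNS hx)
      rw [h1] at this
      exact (sub_eq_zero.mp this.symm)
    have hbc : b = ρ σ c - c := by
      have h1 : idx σ ≡ 1 [MOD p] := hidx_uniq σ hσ 1 (by simp)
      have h2 : f σ = b := by
        show ∑ l ∈ Finset.range (idx σ), ρ (σ ^ l) b = b
        rw [sum_range_pow_periodic ρ σ b p hTp h1]
        simp
      rw [← h2]
      exact hc σ hσ
    obtain ⟨c₁, hc₁⟩ := (hyp N).1 c hcN
    have h0 : normOn ρ N (a - (ρ σ c₁ - c₁)) = 0 := by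
      rw [normOn_sub, normOn_sub, ← apply_normOn_of_normalizes ρ N (hnorm σ hσ) (hnorm' σ hσ),
        hc₁, ← hb, hbc, sub_self]
    have h1 : a - (ρ σ c₁ - c₁) ∈ augOn ρ S := augOn_mono ρ hNS (ih N hN _ h0)
    have h2 : ρ σ c₁ - c₁ ∈ augOn ρ S := sub_mem_augOn ρ S hσ c₁
    have := (augOn ρ S).add_mem h1 h2
    simpa using this

end PGroup

end Fermat.Agent.H24

end
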