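/-
P-CFT / TATE block (helper24), row TATE-EL: the elementary twin-number criterion; reduction to
Sylow subgroups (transfer argument) and the final statements `TwinE1Statement`,
`TwinE2Statement`.
-/
import Fermat.Agent.H24.Tate.ElemPGroup
import Mathlib.GroupTheory.GroupAction.Quotient

set_option autoImplicit false
set_option linter.style.haveILetI false
set_option linter.unusedSectionVars false

noncomputable section

namespace Fermat.Agent.H24

/-- A subgroup of `ℤ` containing, for every prime `q`, a natural number prime to `q`,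
contains `1`. -/
theorem one_mem_of_forall_prime (A : AddSubgroup ℤ)
    (h : ∀ q : ℕ, q.Prime → ∃ m : ℕ, (m : ℤ) ∈ A ∧ ¬ q ∣ m) : (1 : ℤ) ∈ A := by
  have key : ∀ m : ℕ, 0 < m → (m : ℤ) ∈ A → (1 : ℤ) ∈ A := by
    intro m
    induction m using Nat.strong_induction_on with
    | _ m ih =>
      intro hm hmA
      rcases eq_or_ne m 1 with rfl | hm1
      · simpa using hmA
      have hq : (Nat.minFac m).Prime := Nat.minFac_prime hm1
      obtain ⟨m', hm'A, hm'⟩ := h _ hq
      have hd : ((Nat.gcd m m' : ℕ) : ℤ) ∈ A := by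
        rw [Nat.gcd_eq_gcd_ab]
        refine A.add_mem ?_ ?_
        · rw [mul_comm, ← smul_eq_mul]
          exact A.zsmul_mem hmA _
        · rw [mul_comm, ← smul_eq_mul]
          exact A.zsmul_mem hm'A _
      have hdpos : 0 < Nat.gcd m m' := Nat.gcd_pos_of_pos_left _ hm
      have hdlt : Nat.gcd m m' < m := by
        refine lt_of_le_of_ne (Nat.gcd_le_left _ hm) fun heq => hm' ?_
        have : m ∣ m' := heq ▸ Nat.gcd_dvd_right m m'
        exact (Nat.minFac_dvd m).trans this
      exact ih _ hdlt hdpos hd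
  obtain ⟨m, hmA, hm⟩ := h 2 Nat.prime_two
  have hm0 : 0 < m := Nat.pos_of_ne_zero (fun h0 => hm (h0 ▸ dvd_zero 2))
  exact key m hm0 hmA

section Sylow

variable {k G V : Type*} [CommRing k] [Group G] [Fintype G] [AddCommGroup V] [Module k V]
  (ρ : Representation k G V)

/-- Transfer for `H¹`: if the restriction of a cocycle to `P` is a coboundary, then
`[G : P]` times the cocycle is a coboundary. -/
theorem index_smul_coboundary (P : Subgroup G) (hP : P1 ρ P) (f : G → V)
    (hf : ∀ s t : G, f (s * t) = ρ s (f t) + f s) :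
    ∃ a : V, ∀ g : G, (P.index : ℤ) • f g = ρ g a - a := by
  classical
  obtain ⟨a, ha⟩ := hP f (fun s _ t _ => hf s t)
  set f' : G → V := fun s => f s - (ρ s a - a) with hf'
  have hf'c : ∀ s t : G, f' (s * t) = ρ s (f' t) + f' s := by
    intro s t
    simp only [hf', hf s t, map_mul, Module.End.mul_apply, map_sub]
    abel
  have hf'P : ∀ x ∈ P, f' x = 0 := by
    intro x hx
    simp only [hf', ha x hx, sub_self]
  have hright : ∀ s : G, ∀ x ∈ P, f' (s * x) = f' s := by
    intro s x hx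
    rw [hf'c s x, hf'P x hx, map_zero, zero_add]
  haveI : Fintype (G ⧸ P) := Fintype.ofFinite _
  set b : V := ∑ c : G ⧸ P, f' c.out with hb
  have hout : ∀ (x : G) (c : G ⧸ P), f' (x * c.out) = f' (x • c).out := by
    intro x c
    have h1 : (QuotientGroup.mk (x • c).out : G ⧸ P) = QuotientGroup.mk (x * c.out) := by
      rw [QuotientGroup.out_eq']
      conv_lhs => rw [← QuotientGroup.out_eq' c]
      rfl
    rw [QuotientGroup.eq] at h1
    have h2 : x * c.out = (x • c).out * ((x • c).out⁻¹ * (x * c.out)) := by group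
    rw [h2, hright _ _ h1]
  have hxb : ∀ x : G, ρ x b = b - (P.index : ℤ) • f' x := by
    intro x
    have h1 : ρ x b = ∑ c : G ⧸ P, (f' (x • c).out - f' x) := by
      rw [hb, map_sum]
      refine Finset.sum_congr rfl fun c _ => ?_
      rw [← hout, hf'c]
      abel
    rw [h1, Finset.sum_sub_distrib, Finset.sum_const, Finset.card_univ]
    congr 1
    · exact Fintype.sum_equiv (MulAction.toPerm x) _ _ (fun c => rfl)
    · rw [Subgroup.index, Nat.card_eq_fintype_card, natCast_zsmul]
  refine ⟨(P.index : ℤ) • a - b, fun g => ?_⟩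
  have h1 : f g = f' g + (ρ g a - a) := by simp [hf']
  have h2 := hxb g
  rw [map_sub, map_zsmul, h2, h1]
  simp only [smul_add, smul_sub]
  abel

/-- **E1**, for the whole group. -/
theorem P1_top_of_hyp (hyp : ∀ S : Subgroup G, Pm1 ρ S ∧ P0 ρ S) : P1 ρ ⊤ := by
  intro f hf
  have hf' : ∀ s t : G, f (s * t) = ρ s (f t) + f s :=
    fun s t => hf s (Subgroup.mem_top s) t (Subgroup.mem_top t)
  let A : AddSubgroup ℤ :=
    { carrier := {m : ℤ | ∃ a : V, ∀ g : G, m • f g = ρ g a - a}
      zero_mem' := ⟨0, fun g => by simp⟩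
      add_mem' := by
        rintro m m' ⟨a, ha⟩ ⟨a', ha'⟩
        exact ⟨a + a', fun g => by rw [add_smul, ha, ha', map_add]; abel⟩
      neg_mem' := by
        rintro m ⟨a, ha⟩
        exact ⟨-a, fun g => by rw [neg_smul, ha, map_neg]; abel⟩ }
  have h1 : (1 : ℤ) ∈ A := by
    apply one_mem_of_forall_prime
    intro q hq
    haveI : Fact q.Prime := ⟨hq⟩
    let P : Sylow q G := default
    refine ⟨(P : Subgroup G).index, ?_, P.not_dvd_index⟩
    exact index_smul_coboundary ρ P
      (P1_of_card_prime_pow ρ q hyp _ P P.card_eq_multiplicity) f hf'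
  obtain ⟨a, ha⟩ := h1
  exact ⟨a, fun s _ => by simpa using ha s⟩

/-- Transfer for `Ĥ⁻¹`: if `Ĥ⁻¹(P, V) = 0` then `[G : P]` kills `Ĥ⁻¹(G, V)`. -/
theorem index_smul_mem_augOn (P : Subgroup G) (hP : Pm1 ρ P) (a : V)
    (ha : normOn ρ ⊤ a = 0) : (P.index : ℤ) • a ∈ augOn ρ ⊤ := by
  classical
  haveI : Fintype (G ⧸ P) := Fintype.ofFinite _
  haveI : Fintype P := Fintype.ofFinite _
  set r : V := ∑ c : G ⧸ P, ρ (c.out)⁻¹ a with hr
  have h1 : normOn ρ P r = normOn ρ ⊤ a := by
    have htop : normOn ρ ⊤ a = ∑ g : G, ρ g a := by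
      unfold normOn
      simp
    rw [htop, normOn_eq_sum_subtype, hr]
    simp_rw [map_sum, ← Module.End.mul_apply, ← map_mul]
    rw [Finset.sum_comm, ← Finset.sum_product' (Finset.univ : Finset (G ⧸ P))
      (Finset.univ : Finset P) (fun c h => ρ ((h : G) * (c.out)⁻¹) a), Finset.univ_product_univ]
    refine Fintype.sum_bijective (fun x : (G ⧸ P) × P => (x.2 : G) * (x.1.out)⁻¹) ⟨?_, ?_⟩
      _ _ (fun x => rfl)
    · rintro ⟨c, h⟩ ⟨c', h'⟩ hxy
      simp only at hxy
      have h1 : c = c' := by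
        rw [← QuotientGroup.out_eq' c, ← QuotientGroup.out_eq' c', QuotientGroup.eq]
        have : c.out⁻¹ * c'.out = (h : G)⁻¹ * h' := by
          have h2 : (c.out)⁻¹ = (h : G)⁻¹ * ((h' : G) * (c'.out)⁻¹) := by rw [← hxy]; group
          rw [h2]; group
        rw [this]
        exact P.mul_mem (P.inv_mem h.2) h'.2
      subst h1
      have h3 : (h : G) = h' := mul_right_cancel hxy
      exact Prod.ext rfl (Subtype.ext h3)
    · intro g
      have hmem : g * (QuotientGroup.mk g⁻¹ : G ⧸ P).out ∈ P := by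
        have := QuotientGroup.out_eq' (QuotientGroup.mk g⁻¹ : G ⧸ P)
        rw [eq_comm, QuotientGroup.eq, inv_inv] at this
        exact this
      refine ⟨(QuotientGroup.mk g⁻¹, ⟨_, hmem⟩), ?_⟩
      simp
  have h2 : r ∈ augOn ρ ⊤ := augOn_mono ρ le_top (hP r (by rw [h1, ha]))
  have h3 : r - (P.index : ℤ) • a ∈ augOn ρ ⊤ := by
    have : r - (P.index : ℤ) • a = ∑ c : G ⧸ P, (ρ (c.out)⁻¹ a - a) := by
      rw [Finset.sum_sub_distrib, Finset.sum_const, Finset.card_univ, Subgroup.index,
        Nat.card_eq_fintype_card, natCast_zsmul]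
    rw [this]
    exact (augOn ρ ⊤).sum_mem fun c _ => sub_mem_augOn ρ ⊤ (Subgroup.mem_top _) a
  have := (augOn ρ ⊤).sub_mem h2 h3
  simpa using this

/-- **E2**, for the whole group. -/
theorem Pm1_top_of_hyp (hyp : ∀ S : Subgroup G, P0 ρ S ∧ P1 ρ S) : Pm1 ρ ⊤ := by
  intro a ha
  let A : AddSubgroup ℤ :=
    { carrier := {m : ℤ | m • a ∈ augOn ρ ⊤}
      zero_mem' := by simp
      add_mem' := by
        intro m m' hm hm'
        simp only [Set.mem_ofPred_eq] at hm hm' ⊢
        rw [add_smul]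
        exact (augOn ρ ⊤).add_mem hm hm'
      neg_mem' := by
        intro m hm
        simp only [Set.mem_ofPred_eq] at hm ⊢
        rw [neg_smul]
        exact (augOn ρ ⊤).neg_mem hm }
  have h1 : (1 : ℤ) ∈ A := by
    apply one_mem_of_forall_prime
    intro q hq
    haveI : Fact q.Prime := ⟨hq⟩
    let P : Sylow q G := default
    refine ⟨(P : Subgroup G).index, ?_, P.not_dvd_index⟩
    exact index_smul_mem_augOn ρ P
      (Pm1_of_card_prime_pow ρ q hyp _ P P.card_eq_multiplicity) a ha
  have : (1 : ℤ) • a ∈ augOn ρ ⊤ := h1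
  simpa using this

end Sylow

section Transfer

variable {k G V : Type*} [CommRing k] [Group G] [Fintype G] [AddCommGroup V] [Module k V]
  (ρ : Representation k G V) (S : Subgroup G)

theorem normOn_comp_subtype [Fintype S] (T : Subgroup S) (a : V) :
    normOn (ρ.comp S.subtype) T a = normOn ρ (T.map S.subtype) a := by
  classical
  haveI : Fintype T := Fintype.ofFinite _
  haveI : Fintype (T.map S.subtype) := Fintype.ofFinite _
  rw [normOn_eq_sum_subtype, normOn_eq_sum_subtype]
  exact Fintype.sum_equiv (T.equivMapOfInjective S.subtype S.subtype_injective).toEquiv _ _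
    (fun t => rfl)

theorem augOn_comp_subtype (T : Subgroup S) :
    augOn (ρ.comp S.subtype) T = augOn ρ (T.map S.subtype) := by
  unfold augOn
  congr 1
  ext x
  constructor
  · rintro ⟨s, hs, b, rfl⟩
    exact ⟨s, ⟨s, hs, rfl⟩, b, rfl⟩
  · rintro ⟨g, ⟨s, hs, rfl⟩, b, rfl⟩
    exact ⟨s, hs, b, rfl⟩

theorem P0_comp_subtype [Fintype S] (T : Subgroup S) (h : P0 ρ (T.map S.subtype)) :
    P0 (ρ.comp S.subtype) T := by
  intro a ha
  obtain ⟨b, hb⟩ := h a (by rintro g ⟨s, hs, rfl⟩; exact ha s hs)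
  exact ⟨b, by rw [normOn_comp_subtype, hb]⟩

theorem Pm1_comp_subtype [Fintype S] (T : Subgroup S) (h : Pm1 ρ (T.map S.subtype)) :
    Pm1 (ρ.comp S.subtype) T := by
  intro a ha
  rw [normOn_comp_subtype] at ha
  rw [augOn_comp_subtype]
  exact h a ha

theorem P1_comp_subtype (T : Subgroup S) (h : P1 ρ (T.map S.subtype)) :
    P1 (ρ.comp S.subtype) T := by
  classical
  intro f hf
  let F : G → V := fun g => if hg : g ∈ S then f ⟨g, hg⟩ else 0
  have hF : ∀ s : S, F (s : G) = f s := by
    intro s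
    simp only [F]
    rw [dif_pos s.2]
  have hcoc : ∀ s ∈ T.map S.subtype, ∀ t ∈ T.map S.subtype,
      F (s * t) = ρ s (F t) + F s := by
    rintro _ ⟨s, hs, rfl⟩ _ ⟨t, ht, rfl⟩
    have h1 : (S.subtype s * S.subtype t) = ((s * t : S) : G) := rfl
    have h2 : S.subtype s = (s : G) := rfl
    have h3 : S.subtype t = (t : G) := rfl
    rw [h1, hF, h2, h3, hF, hF]
    exact hf s hs t ht
  obtain ⟨a, ha⟩ := h F hcoc
  refine ⟨a, fun s hs => ?_⟩
  have := ha s ⟨s, hs, rfl⟩
  rw [hF] at this
  exact this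

theorem P1_of_comp_subtype_top (h : P1 (ρ.comp S.subtype) ⊤) : P1 ρ S := by
  intro f hf
  obtain ⟨a, ha⟩ := h (fun s => f s) (fun s _ t _ => hf s s.2 t t.2)
  exact ⟨a, fun s hs => ha ⟨s, hs⟩ (Subgroup.mem_top _)⟩

theorem map_subtype_top_eq : (⊤ : Subgroup S).map S.subtype = S := by
  rw [← MonoidHom.range_eq_map, Subgroup.range_subtype]

theorem Pm1_of_comp_subtype_top [Fintype S] (h : Pm1 (ρ.comp S.subtype) ⊤) : Pm1 ρ S := by
  intro a ha
  have := h a (by rw [normOn_comp_subtype, map_subtype_top_eq]; exact ha)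
  rwa [augOn_comp_subtype, map_subtype_top_eq] at this

end Transfer

/-- **T-EL1** the elementary twin-number criterion, upwards. -/
theorem twinE1 : TwinE1Statement := by
  intro G _ _ V _ _ ρ hyp S
  classical
  haveI : Fintype S := Fintype.ofFinite S
  apply P1_of_comp_subtype_top
  apply P1_top_of_hyp
  intro T
  exact ⟨Pm1_comp_subtype ρ S T (hyp _).1, P0_comp_subtype ρ S T (hyp _).2⟩

/-- **T-EL2** the elementary twin-number criterion, downwards. -/
theorem twinE2 : TwinE2Statement := by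
  intro G _ _ V _ _ ρ hyp S
  classical
  haveI : Fintype S := Fintype.ofFinite S
  apply Pm1_of_comp_subtype_top
  apply Pm1_top_of_hyp
  intro T
  exact ⟨P0_comp_subtype ρ S T (hyp _).1, P1_comp_subtype ρ S T (hyp _).2⟩

end Fermat.Agent.H24

end
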