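/-
P-CFT / TATE block (helper24): assembly of the twin-number criterion from the landed rows
TATE-EL (helper24), TATE-BR0 (helper77), TATE-BRm1 (helper19), TATE-BR1 (helper93),
TATE-LES (helper53), TATE-TWIN (helper12).  Only `ShiftStatement` (TATE-IND) remains an input.
-/
import Fermat.Agent.H24.Tate.ElemSylow
import Fermat.Agent.H77.TateBridge0
import Fermat.Agent.H19.Tate.BridgeHm1
import Fermat.Agent.H93.Tate.BridgeH1
import Fermat.Agent.H53.Tate.ShiftIso
import Fermat.Agent.H12.TateTwin

set_option autoImplicit false

namespace Fermat.Agent.H24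

/-- The twin-number criterion, from dimension shifting alone. -/
theorem twinCriterion_of_shift (hs : ShiftStatement) : TwinCriterionStatement :=
  Fermat.Agent.H12.tateTwinCriterion hs Fermat.Agent.H53.shiftIsoStatement
    Fermat.Agent.H77.tbr_bridgeH0 Fermat.Agent.H19.bridgeHm1 Fermat.Agent.H93.Tate.bridgeH1
    twinE1 twinE2

end Fermat.Agent.H24
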