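/-
P-CFT / TATE block (helper24): second assembly.  With TATE-IND (helper30) and TATE-FIN
(helper47) landed, everything is unconditional except the splitting module (TATE-SPLIT).
-/
import Fermat.Agent.H24.Tate.Assembly
import Fermat.Agent.H30.CFT.TateInd
import Fermat.Agent.H47.Tate.Final
import Fermat.Agent.H47.Tate.Transport

set_option autoImplicit false

namespace Fermat.Agent.H24

/-- **T-IND**, unconditional. -/
theorem shiftStatement : ShiftStatement :=
  Fermat.Agent.H30.CFT.shift Fermat.Agent.H77.tbr_bridgeH0 Fermat.Agent.H19.bridgeHm1

/-- **T-REG**, unconditional. -/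
theorem leftRegularTrivialStatement : LeftRegularTrivialStatement :=
  Fermat.Agent.H30.CFT.leftRegularTrivial Fermat.Agent.H77.tbr_bridgeH0
    Fermat.Agent.H19.bridgeHm1

/-- **T-LES**, unconditional. -/
theorem shiftIsoStatement : ShiftIsoStatement := Fermat.Agent.H53.shiftIsoStatement

/-- **T-TWIN** The twin-number criterion, unconditional. -/
theorem twinCriterionStatement : TwinCriterionStatement :=
  twinCriterion_of_shift shiftStatement

/-- Tate's theorem, from the splitting module. -/
theorem tateTheorem_of_splitting (hsp : SplittingStatement) : TateTheoremStatement :=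
  Fermat.Agent.H47.TateFin.tateTheorem hsp twinCriterionStatement shiftIsoStatement
    leftRegularTrivialStatement

/-- `H³(S, C) = 0` for class modules, from the splitting module. -/
theorem tateH3_of_splitting (hsp : SplittingStatement) : TateH3Statement :=
  Fermat.Agent.H47.TateFin.tateH3 (tateTheorem_of_splitting hsp)

/-- `#Ĥ⁰(G, C) = #G^ab` for class modules, from the splitting module. -/
theorem tateH0Card_of_splitting (hsp : SplittingStatement) : TateH0CardStatement :=
  Fermat.Agent.H47.TateFin.tateH0Card (tateTheorem_of_splitting hsp)

end Fermat.Agent.H24
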