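/-
P-CFT / TATE block (helper24): the classical form of the hypotheses of Tate's theorem
(`H¹(S, C) = 0`, `H²(S, C)` cyclic of order `#S`) produces a fundamental class, i.e. `TateClassHyp`.
Uses helper75's transfer argument in degree 2.
-/
import Fermat.Agent.H24.Tate.Interfaces
import Fermat.Agent.H75.Coh2Res

set_option autoImplicit false
set_option linter.style.haveILetI false

noncomputable section

open CategoryTheory

namespace Fermat.Agent.H24

/-- The classical hypotheses of Tate's theorem: `H¹(S, C) = 0` and `H²(S, C)` is cyclic of order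
`#S` for every subgroup `S` (and for `G` itself). -/
def TateCyclicHyp {G : Type} [Group G] (C : Rep ℤ G) : Prop :=
  (IsAddCyclic (groupCohomology C 2) ∧ Nat.card (groupCohomology C 2) = Nat.card G) ∧
  ∀ S : Subgroup G,
    Subsingleton (groupCohomology (Rep.res S.subtype C) 1) ∧
    Nat.card (groupCohomology (Rep.res S.subtype C) 2) = Nat.card S ∧
    IsAddCyclic (groupCohomology (Rep.res S.subtype C) 2)

/-- Every generator of `H²(G, C)` is a fundamental class. -/
theorem tateClassHyp_of_generator {G : Type} [Group G] [Finite G] (C : Rep ℤ G)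
    (h : TateCyclicHyp C) (u : groupCohomology C 2)
    (hu : ∀ x : groupCohomology C 2, x ∈ AddSubgroup.zmultiples u) : TateClassHyp C u := by
  intro S
  obtain ⟨⟨-, hcardG⟩, hS⟩ := h
  obtain ⟨h1, hcard, -⟩ := hS S
  refine ⟨h1, hcard, ?_⟩
  set r : groupCohomology (Rep.res S.subtype C) 2 :=
    groupCohomology.map S.subtype (𝟙 (Rep.res S.subtype C)) 2 u with hr
  have hSpos : 0 < Nat.card S := Nat.card_pos
  haveI : Finite (groupCohomology (Rep.res S.subtype C) 2) :=
    Nat.finite_of_card_ne_zero (by rw [hcard]; exact hSpos.ne')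
  have hordu : addOrderOf u = Nat.card G := by
    rw [← hcardG]
    exact addOrderOf_eq_card_of_forall_mem_zmultiples hu
  have hdvd1 : addOrderOf r ∣ Nat.card S := by
    rw [← hcard]
    exact addOrderOf_dvd_natCard r
  have hdvd2 : Nat.card S ∣ addOrderOf r := by
    have h0 : groupCohomology.map S.subtype (𝟙 (Rep.res S.subtype C)) 2 (addOrderOf r • u) = 0 := by
      rw [map_nsmul]
      exact addOrderOf_nsmul_eq_zero r
    have h2 := Fermat.Agent.H75.Coh2.index_smul_eq_zero_of_res_eq_zero C S (addOrderOf r • u) h0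
    rw [← mul_nsmul'] at h2
    have h3 : addOrderOf u ∣ S.index * addOrderOf r := addOrderOf_dvd_of_nsmul_eq_zero h2
    rw [hordu, ← S.index_mul_card] at h3
    exact Nat.dvd_of_mul_dvd_mul_left (Nat.pos_of_ne_zero Subgroup.index_ne_zero_of_finite) h3
  have hord : addOrderOf r = Nat.card S := Nat.dvd_antisymm hdvd1 hdvd2
  have htop : AddSubgroup.zmultiples r = ⊤ := by
    rw [← AddSubgroup.card_eq_iff_eq_top, Nat.card_zmultiples, hord, hcard]
  intro y
  have hy : y ∈ AddSubgroup.zmultiples r := by rw [htop]; exact AddSubgroup.mem_top y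
  obtain ⟨m, hm⟩ := AddSubgroup.mem_zmultiples_iff.mp hy
  exact ⟨m, hm.symm⟩

/-- The classical hypotheses of Tate's theorem produce a fundamental class. -/
theorem exists_tateClassHyp_of_cyclic {G : Type} [Group G] [Finite G] (C : Rep ℤ G)
    (h : TateCyclicHyp C) : ∃ u : groupCohomology C 2, TateClassHyp C u := by
  obtain ⟨u, hu⟩ := h.1.1.exists_generator
  exact ⟨u, tateClassHyp_of_generator C h u hu⟩

end Fermat.Agent.H24

end
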