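/-
P-CFT / abstract block TATE (helper24): Tate's theorem, UNCONDITIONAL.

Final assembly of the block: the splitting-module row (helper56), the induced-module row
(helper30), the bridges (helper77, helper19, helper93), the long exact sequence row (helper53)
and the elementary twin criterion (helper24, helper12) give Tate's theorem for class modules
with no hypotheses left.

* `splittingStatement       : SplittingStatement`
* `tateTheoremStatement     : TateTheoremStatement`
* `tateH3Statement          : TateH3Statement`
* `tateH0CardStatement      : TateH0CardStatement`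

and the same results in unfolded form (`tate_iso`, `tate_H3_subsingleton`, `tate_card_H0`),
plus versions for the classical cyclic hypotheses (`TateCyclicHyp`).
-/
import Fermat.Agent.H24.Tate.Assembly2
import Fermat.Agent.H24.Tate.WeakHyp
import Fermat.Agent.H56.Tate.Splitting
import Fermat.Agent.H47.Tate.Transport
import Fermat.Agent.H47.Tate.Final

set_option autoImplicit false

noncomputable section

open CategoryTheory

namespace Fermat.Agent.H24

/-- The splitting module of a fundamental class exists and is cohomologically trivial in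
degrees 1 and 2. -/
theorem splittingStatement : SplittingStatement :=
  Fermat.Agent.H56.Tate.splitting leftRegularTrivialStatement

/-- **Tate's theorem** (Tate–Nakayama), unconditional. -/
theorem tateTheoremStatement : TateTheoremStatement :=
  tateTheorem_of_splitting splittingStatement

/-- `H³(S, C) = 0` for a class module, unconditional. -/
theorem tateH3Statement : TateH3Statement :=
  tateH3_of_splitting splittingStatement

/-- `#Ĥ⁰(G, C) = #G^ab` for a class module, unconditional. -/
theorem tateH0CardStatement : TateH0CardStatement :=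
  tateH0Card_of_splitting splittingStatement

/-- **Tate's theorem**, unfolded: for a class module `(C, u)` of the finite group `G`,
`Ĥ^{n+2}(S, C) ≅ Ĥ^n(S, ℤ)` for every subgroup `S` and every integer `n`. -/
theorem tate_iso {G : Type} [Group G] [Fintype G] (C : Rep ℤ G) (u : groupCohomology C 2)
    (h : TateClassHyp C u) (S : Subgroup G) [Fintype S] (n : ℤ) :
    Nonempty (tateCohomology (Rep.res S.subtype C) (n + 2) ≅
      tateCohomology (Rep.trivial ℤ S ℤ) n) :=
  tateTheoremStatement G C u h S n

/-- `H³(S, C) = 0` for a class module `(C, u)`. -/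
theorem tate_H3_subsingleton {G : Type} [Group G] [Fintype G] (C : Rep ℤ G)
    (u : groupCohomology C 2) (h : TateClassHyp C u) (S : Subgroup G) :
    Subsingleton (groupCohomology (Rep.res S.subtype C) 3) :=
  tateH3Statement G C u h S

/-- `#Ĥ⁰(G, C) = #G^ab` for a class module `(C, u)`. -/
theorem tate_card_H0 {G : Type} [Group G] [Fintype G] (C : Rep ℤ G)
    (u : groupCohomology C 2) (h : TateClassHyp C u) :
    Nat.card (tateCohomology C 0) = Nat.card (Abelianization G) :=
  tateH0CardStatement G C u h

/-- **Tate's theorem** for the group `G` itself: `Ĥ^{n+2}(G, C) ≅ Ĥ^n(G, ℤ)`. -/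
theorem tate_iso_self {G : Type} [Group G] [Fintype G] (C : Rep ℤ G) (u : groupCohomology C 2)
    (h : TateClassHyp C u) (n : ℤ) :
    Nonempty (tateCohomology C (n + 2) ≅ tateCohomology (Rep.trivial ℤ G ℤ) n) := by
  have : Fintype (⊤ : Subgroup G) := Fintype.ofFinite _
  obtain ⟨e⟩ := tate_iso C u h ⊤ n
  have hbij : Function.Bijective (⊤ : Subgroup G).subtype :=
    ⟨Subtype.val_injective, fun g => ⟨⟨g, Subgroup.mem_top g⟩, rfl⟩⟩
  exact ⟨(Fermat.Agent.H47.TateFin.tateCohomologyTransport (⊤ : Subgroup G).subtype hbij C
      (n + 2)).symm ≪≫ e ≪≫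
    (tateCohomologyFunctor n).mapIso (Fermat.Agent.H47.TateFin.resTrivialIso ⊤).symm ≪≫
    Fermat.Agent.H47.TateFin.tateCohomologyTransport (⊤ : Subgroup G).subtype hbij
      (Rep.trivial ℤ G ℤ) n⟩

/-- Tate's theorem under the classical cyclic hypotheses (`H¹(S, C) = 0`, `H²(S, C)` cyclic of
order `#S`). -/
theorem tate_iso_of_cyclic {G : Type} [Group G] [Fintype G] (C : Rep ℤ G)
    (h : TateCyclicHyp C) (S : Subgroup G) [Fintype S] (n : ℤ) :
    Nonempty (tateCohomology (Rep.res S.subtype C) (n + 2) ≅
      tateCohomology (Rep.trivial ℤ S ℤ) n) := by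
  obtain ⟨u, hu⟩ := exists_tateClassHyp_of_cyclic C h
  exact tate_iso C u hu S n

/-- Tate's theorem for `G` itself under the classical cyclic hypotheses. -/
theorem tate_iso_self_of_cyclic {G : Type} [Group G] [Fintype G] (C : Rep ℤ G)
    (h : TateCyclicHyp C) (n : ℤ) :
    Nonempty (tateCohomology C (n + 2) ≅ tateCohomology (Rep.trivial ℤ G ℤ) n) := by
  obtain ⟨u, hu⟩ := exists_tateClassHyp_of_cyclic C h
  exact tate_iso_self C u hu n

/-- `H³(S, C) = 0` under the classical cyclic hypotheses. -/
theorem tate_H3_subsingleton_of_cyclic {G : Type} [Group G] [Fintype G] (C : Rep ℤ G)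
    (h : TateCyclicHyp C) (S : Subgroup G) :
    Subsingleton (groupCohomology (Rep.res S.subtype C) 3) := by
  obtain ⟨u, hu⟩ := exists_tateClassHyp_of_cyclic C h
  exact tate_H3_subsingleton C u hu S

/-- `#Ĥ⁰(G, C) = #G^ab` under the classical cyclic hypotheses. -/
theorem tate_card_H0_of_cyclic {G : Type} [Group G] [Fintype G] (C : Rep ℤ G)
    (h : TateCyclicHyp C) : Nat.card (tateCohomology C 0) = Nat.card (Abelianization G) := by
  obtain ⟨u, hu⟩ := exists_tateClassHyp_of_cyclic C h
  exact tate_card_H0 C u hu

end Fermat.Agent.H24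

end
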