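/-
P-CFT / TATE block (helper24), TATE-SPLIT part (a1): the augmentation sequence
`0 → I_G → ℤ[G] → ℤ → 0` in `Rep ℤ G`, with `I_G` realised on the kernel of the augmentation.
-/
import Fermat.Agent.H24.Tate.Interfaces
import Mathlib.RepresentationTheory.Homological.GroupCohomology.LongExactSequence

set_option autoImplicit false

noncomputable section

open CategoryTheory

namespace Fermat.Agent.H24

attribute [local instance 10000] Rep.hV2

variable (G : Type) [Group G]

/-- The augmentation `ℤ[G] → ℤ` as a morphism of representations. -/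
def augHom : Rep.leftRegular ℤ G ⟶ Rep.trivial ℤ G ℤ :=
  Rep.leftRegularHom (Rep.trivial ℤ G ℤ) (1 : ℤ)

/-- The augmentation as a linear map. -/
def augLin : MonoidAlgebra ℤ G →ₗ[ℤ] ℤ := (augHom G).hom.toLinearMap

@[simp]
theorem augLin_single (g : G) (n : ℤ) : augLin G (MonoidAlgebra.single g n) = n := by
  have := Rep.leftRegularHom_hom_single (A := Rep.trivial ℤ G ℤ) g (1 : ℤ) n
  simp [augLin, augHom]

/-- The augmentation is invariant under left translation. -/
theorem augLin_leftRegular (g : G) (x : MonoidAlgebra ℤ G) :
    augLin G (Representation.leftRegular ℤ G g x) = augLin G x := by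
  have := Rep.hom_comm_apply (augHom G) g x
  simpa [augLin] using this

/-- The underlying module of the augmentation ideal. -/
abbrev AugV : Type := LinearMap.ker (augLin G)

/-- The representation of `G` on the augmentation ideal. -/
def augRho : Representation ℤ G (AugV G) where
  toFun g := (Representation.leftRegular ℤ G g).restrict (p := LinearMap.ker (augLin G))
    (q := LinearMap.ker (augLin G)) (fun x hx => by
      rw [LinearMap.mem_ker] at hx ⊢
      rw [augLin_leftRegular, hx])
  map_one' := by
    ext x
    simp
  map_mul' g h := by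
    ext x
    simp

@[simp]
theorem augRho_coe (g : G) (x : AugV G) :
    ((augRho G g x : AugV G) : MonoidAlgebra ℤ G) = Representation.leftRegular ℤ G g x := rfl

/-- The augmentation ideal `I_G` as a representation. -/
abbrev augRep : Rep ℤ G := Rep.of (augRho G)

/-- The inclusion `I_G → ℤ[G]`. -/
def augIncl : augRep G ⟶ Rep.leftRegular ℤ G :=
  Rep.ofHom ⟨(LinearMap.ker (augLin G)).subtype, fun g => by ext x; rfl⟩

@[simp]
theorem augIncl_apply (x : AugV G) : (augIncl G).hom x = (x : MonoidAlgebra ℤ G) := rfl

theorem augIncl_comp_augHom : augIncl G ≫ augHom G = 0 := by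
  ext x
  exact x.2

/-- The element `g - 1` of the augmentation ideal. -/
def augGen (g : G) : AugV G :=
  ⟨MonoidAlgebra.single g (1 : ℤ) - MonoidAlgebra.single 1 (1 : ℤ), by
    rw [LinearMap.mem_ker, map_sub, augLin_single, augLin_single, sub_self]⟩

@[simp]
theorem augGen_coe (g : G) :
    (augGen G g : MonoidAlgebra ℤ G)
      = MonoidAlgebra.single g (1 : ℤ) - MonoidAlgebra.single 1 (1 : ℤ) := rfl

/-- `h • (g - 1) = (h g - 1) - (h - 1)`. -/
theorem augRho_augGen (h g : G) : augRho G h (augGen G g) = augGen G (h * g) - augGen G h := by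
  apply Subtype.ext
  simp [augGen]

/-- The augmentation sequence is short exact. -/
theorem augShortExact : (ShortComplex.mk (augIncl G) (augHom G) (augIncl_comp_augHom G)).ShortExact := by
  have hmono : Mono (augIncl G) := by
    rw [Rep.mono_iff_injective]
    intro x y hxy
    exact Subtype.ext hxy
  have hepi : Epi (augHom G) := by
    rw [Rep.epi_iff_surjective]
    intro n
    exact ⟨MonoidAlgebra.single 1 n, augLin_single G 1 n⟩
  refine { exact := ?_, mono_f := hmono, epi_g := hepi }
  rw [← ShortComplex.exact_map_iff_of_faithful _ (forget₂ (Rep.{0} ℤ G) (ModuleCat.{0} ℤ)),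
    ShortComplex.moduleCat_exact_iff]
  intro x hx
  exact ⟨⟨x, hx⟩, rfl⟩

end Fermat.Agent.H24

end
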