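/-
P-CFT / TATE block (helper24), TATE-SPLIT part (a2): the splitting module `D = C × I_G` of a
`2`-cocycle `φ`, with the twisted action `g (c, ξ) = (g c + ∑_h ξ(h) φ(g, h), g ξ)`, and the
short exact sequence `0 → C → D → I_G → 0`.
-/
import Fermat.Agent.H24.Tate.AugDef

set_option autoImplicit false

noncomputable section

open CategoryTheory

namespace Fermat.Agent.H24

attribute [local instance 10000] Rep.hV2

variable {G : Type} [Group G] (C : Rep ℤ G)

/-- The `2`-cocycle identity (Mathlib's convention, `groupCohomology.mem_cocycles₂_iff`). -/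
def IsTwoCocycle (φ : G × G → C.V) : Prop :=
  ∀ g h j : G, φ (g * h, j) + φ (g, h) = C.ρ g (φ (h, j)) + φ (g, h * j)

variable {C}

theorem IsTwoCocycle.map_one_fst {φ : G × G → C.V} (hφ : IsTwoCocycle C φ) (j : G) :
    φ (1, j) = φ (1, 1) := by
  have := hφ 1 1 j
  simp only [mul_one, one_mul, map_one, Module.End.one_apply] at this
  exact (add_left_cancel this).symm

variable (C)

/-- `Θ_g(ξ) = ∑_h ξ(h) φ(g, h)`. -/
def splitTheta (φ : G × G → C.V) (g : G) : MonoidAlgebra ℤ G →ₗ[ℤ] C.V :=
  Finsupp.linearCombination ℤ (fun h => φ (g, h)) ∘ₗ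
    (MonoidAlgebra.coeffLinearEquiv ℤ).toLinearMap

@[simp]
theorem splitTheta_single (φ : G × G → C.V) (g h : G) (n : ℤ) :
    splitTheta C φ g (MonoidAlgebra.single h n) = n • φ (g, h) := by
  simp only [splitTheta, LinearMap.coe_comp, LinearEquiv.coe_coe, Function.comp_apply,
    MonoidAlgebra.coeffLinearEquiv_apply, MonoidAlgebra.coeff_single,
    Finsupp.linearCombination_single]
  exact int_smul_eq_zsmul C.hV2 n (φ (g, h))

/-- The key identity `g Θ_h(ξ) + Θ_g(h ξ) = Θ_{gh}(ξ) + ε(ξ) φ(g, h)`. -/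
theorem splitTheta_mul {φ : G × G → C.V} (hφ : IsTwoCocycle C φ) (g h : G)
    (ξ : MonoidAlgebra ℤ G) :
    C.ρ g (splitTheta C φ h ξ) + splitTheta C φ g (Representation.leftRegular ℤ G h ξ)
      = splitTheta C φ (g * h) ξ + augLin G ξ • φ (g, h) := by
  induction ξ using MonoidAlgebra.induction_linear with
  | zero => simp
  | add x y hx hy =>
    simp only [map_add, add_zsmul]
    rw [add_add_add_comm, hx, hy]
    abel
  | single j n =>
    simp only [splitTheta_single, Representation.ofMulAction_single, smul_eq_mul, map_zsmul,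
      augLin_single]
    rw [← zsmul_add, ← zsmul_add, ← hφ g h j]

theorem splitTheta_one {φ : G × G → C.V} (hφ : IsTwoCocycle C φ) (ξ : MonoidAlgebra ℤ G) :
    splitTheta C φ 1 ξ = augLin G ξ • φ (1, 1) := by
  induction ξ using MonoidAlgebra.induction_linear with
  | zero => simp
  | add x y hx hy => simp only [map_add, add_zsmul, hx, hy]
  | single j n => simp [hφ.map_one_fst j]

/-- An additive map between two `ℤ`-modules (with arbitrary module structures) is linear. -/
def intLin {A B : Type} [AddCommGroup A] [AddCommGroup B] (hA : Module ℤ A) (hB : Module ℤ B)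
    (f : A →+ B) : @LinearMap ℤ ℤ _ _ (RingHom.id ℤ) A B _ _ hA hB :=
  letI := hA
  letI := hB
  { toFun := f
    map_add' := f.map_add
    map_smul' := fun c x => by
      simpa using map_intCast_smul f ℤ ℤ c x }

@[simp]
theorem intLin_apply {A B : Type} [AddCommGroup A] [AddCommGroup B] (hA : Module ℤ A)
    (hB : Module ℤ B) (f : A →+ B) (x : A) :
    @DFunLike.coe (@LinearMap ℤ ℤ _ _ (RingHom.id ℤ) A B _ _ hA hB) A (fun _ => B)
      (@LinearMap.instFunLike ℤ ℤ A B _ _ _ _ hA hB (RingHom.id ℤ)) (intLin hA hB f) x = f x :=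
  rfl

/-- The twisted action of `g` on `C × I_G`, as an additive map. -/
def splitAdd (φ : G × G → C.V) (g : G) : C.V × AugV G →+ C.V × AugV G where
  toFun x := (C.ρ g x.1 + splitTheta C φ g (x.2 : MonoidAlgebra ℤ G), augRho G g x.2)
  map_zero' := by
    apply Prod.ext
    · simp
    · simp
  map_add' x y := by
    apply Prod.ext
    · simp only [Prod.fst_add, Prod.snd_add, map_add, Submodule.coe_add]
      abel
    · simp

@[simp]
theorem splitAdd_apply (φ : G × G → C.V) (g : G) (x : C.V × AugV G) :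
    splitAdd C φ g x
      = (C.ρ g x.1 + splitTheta C φ g (x.2 : MonoidAlgebra ℤ G), augRho G g x.2) := rfl

/-- The twisted action on `C × I_G`. -/
def splitRho (φ : G × G → C.V) (hφ : IsTwoCocycle C φ) :
    Representation ℤ G (C.V × AugV G) where
  toFun g := intLin _ _ (splitAdd C φ g)
  map_one' := by
    apply LinearMap.ext
    rintro ⟨c, ξ⟩
    have hξ : augLin G (ξ : MonoidAlgebra ℤ G) = 0 := ξ.2
    apply Prod.ext
    · simp [splitTheta_one C hφ, hξ]
    · simp
  map_mul' g h := by
    apply LinearMap.ext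
    rintro ⟨c, ξ⟩
    have hξ : augLin G (ξ : MonoidAlgebra ℤ G) = 0 := ξ.2
    have key := splitTheta_mul C hφ g h (ξ : MonoidAlgebra ℤ G)
    rw [hξ, zero_smul, add_zero] at key
    apply Prod.ext
    · simp only [intLin_apply, splitAdd_apply, Module.End.mul_apply, map_mul, map_add,
        augRho_coe]
      rw [← key]
      abel
    · simp

@[simp]
theorem splitRho_apply (φ : G × G → C.V) (hφ : IsTwoCocycle C φ) (g : G)
    (x : C.V × AugV G) :
    splitRho C φ hφ g x
      = (C.ρ g x.1 + splitTheta C φ g (x.2 : MonoidAlgebra ℤ G), augRho G g x.2) := rfl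

/-- The splitting module of the `2`-cocycle `φ`. -/
abbrev splitRep (φ : G × G → C.V) (hφ : IsTwoCocycle C φ) : Rep ℤ G :=
  Rep.of (splitRho C φ hφ)

/-- The inclusion `C → D`. -/
def splitIncl (φ : G × G → C.V) (hφ : IsTwoCocycle C φ) : C ⟶ splitRep C φ hφ :=
  Rep.ofHom (ρ := C.ρ) (σ := splitRho C φ hφ)
    ⟨intLin C.hV2 _ (AddMonoidHom.inl C.V (AugV G)), fun g => by
      apply LinearMap.ext
      intro c
      apply Prod.ext
      · simp
      · simp⟩

/-- The projection `D → I_G`. -/
def splitProj (φ : G × G → C.V) (hφ : IsTwoCocycle C φ) : splitRep C φ hφ ⟶ augRep G :=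
  Rep.ofHom (ρ := splitRho C φ hφ) (σ := augRho G)
    ⟨intLin _ _ (AddMonoidHom.snd C.V (AugV G)), fun g => by
      apply LinearMap.ext
      intro x
      rfl⟩

@[simp]
theorem splitIncl_apply (φ : G × G → C.V) (hφ : IsTwoCocycle C φ) (c : C.V) :
    (splitIncl C φ hφ).hom c = ((c, 0) : C.V × AugV G) := rfl

@[simp]
theorem splitProj_apply (φ : G × G → C.V) (hφ : IsTwoCocycle C φ) (x : C.V × AugV G) :
    (splitProj C φ hφ).hom x = x.2 := rfl

theorem splitIncl_comp_splitProj (φ : G × G → C.V) (hφ : IsTwoCocycle C φ) :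
    splitIncl C φ hφ ≫ splitProj C φ hφ = 0 := by
  ext c
  rfl

/-- The sequence `0 → C → D → I_G → 0` is short exact. -/
theorem splitShortExact (φ : G × G → C.V) (hφ : IsTwoCocycle C φ) :
    (ShortComplex.mk (splitIncl C φ hφ) (splitProj C φ hφ)
      (splitIncl_comp_splitProj C φ hφ)).ShortExact := by
  have hmono : Mono (splitIncl C φ hφ) := by
    rw [Rep.mono_iff_injective]
    intro x y hxy
    exact congrArg Prod.fst hxy
  have hepi : Epi (splitProj C φ hφ) := by
    rw [Rep.epi_iff_surjective]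
    intro ξ
    exact ⟨((0 : C.V), ξ), rfl⟩
  refine { exact := ?_, mono_f := hmono, epi_g := hepi }
  rw [← ShortComplex.exact_map_iff_of_faithful _ (forget₂ (Rep.{0} ℤ G) (ModuleCat.{0} ℤ)),
    ShortComplex.moduleCat_exact_iff]
  rintro ⟨c, ξ⟩ hx
  have hξ : ξ = 0 := hx
  subst hξ
  exact ⟨c, rfl⟩

end Fermat.Agent.H24

end
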