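/-
P-CFT / TATE block (helper24), TATE-SPLIT: interfaces for the remaining parts.
`AugDef` = augmentation sequence `0 → I_G → ℤ[G] → ℤ → 0`, `SplitDef` = splitting module
`0 → C → D → I_G → 0` (both landed, short exact).  Remaining:
* `AugH2Statement`   : `H²(S, I_G) = 0`;
* `AugH1Statement`   : `H¹(S, I_G)` is generated by the class of `s ↦ s - 1`, killed by `#S`;
* `SplitDeltaStatement` : the connecting map of the splitting module sends that class to the
                        restriction of the class of `φ`;
* conclusion         : `SplittingStatement`.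
-/
import Fermat.Agent.H24.Tate.SplitDef
import Mathlib.RepresentationTheory.Homological.GroupCohomology.Functoriality

set_option autoImplicit false

noncomputable section

open CategoryTheory groupCohomology

namespace Fermat.Agent.H24

attribute [local instance 10000] Rep.hV2

/-- The `1`-cocycle `s ↦ s - 1` on `S` with values in `I_G`. -/
def augCocycle (G : Type) [Group G] (S : Subgroup G) :
    cocycles₁ (Rep.res S.subtype (augRep G)) :=
  ⟨fun s => augGen G (s : G), by
    rw [mem_cocycles₁_iff]
    intro g h
    show augGen G ((g : G) * (h : G)) = augRho G (g : G) (augGen G (h : G)) + augGen G (g : G)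
    rw [augRho_augGen]
    abel⟩

@[simp]
theorem augCocycle_apply (G : Type) [Group G] (S : Subgroup G) (s : S) :
    (augCocycle G S : S → AugV G) s = augGen G (s : G) := rfl

/-- The class of `s ↦ s - 1` in `H¹(S, I_G)`. -/
def augClass (G : Type) [Group G] (S : Subgroup G) :
    groupCohomology (Rep.res S.subtype (augRep G)) 1 :=
  H1π (Rep.res S.subtype (augRep G)) (augCocycle G S)

/-- **SPLIT-B1** `H²(S, I_G) = 0`. -/
def AugH2Statement : Prop :=
  ∀ (G : Type) [Group G] [Fintype G] (S : Subgroup G),
    Limits.IsZero (groupCohomology (Rep.res S.subtype (augRep G)) 2)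

/-- **SPLIT-B2** `H¹(S, I_G)` is generated by the class of `s ↦ s - 1`, which is killed
by `#S`. -/
def AugH1Statement : Prop :=
  ∀ (G : Type) [Group G] [Fintype G] (S : Subgroup G),
    (∀ x : groupCohomology (Rep.res S.subtype (augRep G)) 1, ∃ n : ℤ, x = n • augClass G S) ∧
    (Nat.card S) • augClass G S = 0

/-- The restriction to `S` of the splitting sequence `0 → C → D → I_G → 0`. -/
abbrev splitSeqRes {G : Type} [Group G] (C : Rep ℤ G) (φ : G × G → C.V)
    (hφ : IsTwoCocycle C φ) (S : Subgroup G) : ShortComplex (Rep ℤ S) :=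
  (ShortComplex.mk (splitIncl C φ hφ) (splitProj C φ hφ)
    (splitIncl_comp_splitProj C φ hφ)).map (Rep.resFunctor S.subtype)

theorem splitSeqRes_shortExact {G : Type} [Group G] (C : Rep ℤ G) (φ : G × G → C.V)
    (hφ : IsTwoCocycle C φ) (S : Subgroup G) : (splitSeqRes C φ hφ S).ShortExact :=
  (Rep.shortExact_res S.subtype).mpr (splitShortExact C φ hφ)

/-- The restriction to `S` of the augmentation sequence `0 → I_G → ℤ[G] → ℤ → 0`. -/
abbrev augSeqRes (G : Type) [Group G] (S : Subgroup G) : ShortComplex (Rep ℤ S) :=
  (ShortComplex.mk (augIncl G) (augHom G) (augIncl_comp_augHom G)).map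
    (Rep.resFunctor S.subtype)

theorem augSeqRes_shortExact (G : Type) [Group G] (S : Subgroup G) :
    (augSeqRes G S).ShortExact :=
  (Rep.shortExact_res S.subtype).mpr (augShortExact G)

/-- **SPLIT-C** The connecting homomorphism `H¹(S, I_G) → H²(S, C)` of the splitting module sends
the class of `s ↦ s - 1` to the restriction of the class of `φ`. -/
def SplitDeltaStatement : Prop :=
  ∀ (G : Type) [Group G] (C : Rep ℤ G) (φ : G × G → C.V) (hφ : IsTwoCocycle C φ)
    (S : Subgroup G),
    groupCohomology.δ (splitSeqRes_shortExact C φ hφ S) 1 2 rfl (augClass G S)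
      = groupCohomology.map S.subtype (𝟙 (Rep.res S.subtype C)) 2
          (H2π C ⟨φ, (mem_cocycles₂_iff φ).mpr hφ⟩)

end Fermat.Agent.H24

end
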