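/-
P-CFT / TATE block (helper24), TATE-SPLIT-C (row 591): the connecting homomorphism of the
splitting module sends the class of `s ↦ s - 1` to the restriction of the class of `φ`.
-/
import Fermat.Agent.H24.Tate.SplitInterfaces

set_option autoImplicit false

noncomputable section

open CategoryTheory groupCohomology

namespace Fermat.Agent.H24

attribute [local instance 10000] Rep.hV2

variable {G : Type} [Group G] (C : Rep ℤ G)

theorem IsTwoCocycle.map_one_snd {φ : G × G → C.V} (hφ : IsTwoCocycle C φ) (g : G) :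
    φ (g, 1) = C.ρ g (φ (1, 1)) := by
  have := hφ g 1 1
  simp only [mul_one] at this
  exact add_left_cancel (a := φ (g, 1)) (by rw [this]; abel)

/-- **SPLIT-C** -/
theorem splitDeltaStatement : SplitDeltaStatement := by
  intro G _ C φ hφ S
  -- the lift `y s = (0, s - 1)` and the cochain `x (s, t) = φ (s, t) - φ (s, 1)`
  let y : S → (splitSeqRes C φ hφ S).X₂ := fun s => ((0, augGen G (s : G)) : C.V × AugV G)
  let x : S × S → (splitSeqRes C φ hφ S).X₁ :=
    fun p => (φ ((p.1 : G), (p.2 : G)) - φ ((p.1 : G), 1) : C.V)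
  have hy : (splitSeqRes C φ hφ S).g.hom ∘ y = augCocycle G S := by
    funext s
    rfl
  have hx : (splitSeqRes C φ hφ S).f.hom ∘ x = d₁₂ (splitSeqRes C φ hφ S).X₂ y := by
    funext p
    obtain ⟨s, t⟩ := p
    show (((φ ((s : G), (t : G)) - φ ((s : G), 1) : C.V), 0) : C.V × AugV G)
      = splitRho C φ hφ (s : G) ((0, augGen G (t : G)) : C.V × AugV G)
        - ((0, augGen G ((s : G) * (t : G))) : C.V × AugV G)
        + ((0, augGen G (s : G)) : C.V × AugV G)
    apply Prod.ext
    · simp only [splitRho_apply, Prod.fst_add, Prod.fst_sub, map_zero, zero_add,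
        augGen_coe, map_sub, splitTheta_single, one_smul, sub_zero, add_zero]
    · simp only [splitRho_apply, Prod.snd_add, Prod.snd_sub, augRho_augGen]
      abel
  have h1 := δ₁_apply (splitSeqRes_shortExact C φ hφ S) (augCocycle G S) y hy x hx
  have h2 := congr($(H2π_comp_map (A := C) (B := Rep.res S.subtype C) S.subtype
    (𝟙 (Rep.res S.subtype C))) ⟨φ, (mem_cocycles₂_iff φ).mpr hφ⟩)
  simp only [ModuleCat.hom_comp, LinearMap.coe_comp, Function.comp_apply] at h2
  refine h1.trans (Eq.trans ?_ h2.symm)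
  refine (H2π_eq_iff (A := Rep.res S.subtype C) _ _).mpr ⟨fun _ => -φ (1, 1), ?_⟩
  funext p
  obtain ⟨s, t⟩ := p
  show C.ρ (s : G) (-φ (1, 1)) - -φ (1, 1) + -φ (1, 1)
    = (φ ((s : G), (t : G)) - φ ((s : G), 1)) - φ ((s : G), (t : G))
  simp only [hφ.map_one_snd C (s : G), map_neg]
  abel

end Fermat.Agent.H24

end
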